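import Mathlib

/-!
# S43 / Free / Grp : the group theory of the diamonds  (Mathlib only)

`Gt = (ZMod (M * q))ˣ`, `n * k' = q - 1`, `n`, `k'` coprime (`n = p ^ a`), `chi d = (d mod q) ^ k'`, `GH = ker chi`.
For every `c1 ∈ Gt` with `c1 ^ (n * k') = 1` such that `chi c1` has order `n`, the element `d0 = c1 ^ (k' * m)`
(`k' * m ≡ 1 mod n`) satisfies `d0 ^ n = 1`, `d0 * c1⁻¹ ∈ GH` and `(i, h) ↦ d0 ^ i * h` is a bijection `Fin n × GH → Gt`.
-/

set_option autoImplicit false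

namespace Fermat.Agent.S43.Free

/-- abstract form. -/
theorem grp_abs {G C : Type*} [CommGroup G] [CommGroup C] (χ : G →* C) (n k' m : ℕ) (c1 : G)
    (hm : k' * m % n = 1) (hc1 : c1 ^ (n * k') = 1) (hyn : χ c1 ^ n = 1)
    (hinj : ∀ i j, i < n → j < n → χ c1 ^ i = χ c1 ^ j → i = j)
    (hsurj : ∀ g, ∃ i < n, χ c1 ^ i = χ g) :
    (c1 ^ (k' * m)) ^ n = 1 ∧ χ (c1 ^ (k' * m)) = χ c1 ∧ c1 ^ (k' * m) * c1⁻¹ ∈ χ.ker ∧
      Function.Bijective (fun x : Fin n × χ.ker => (c1 ^ (k' * m)) ^ (x.1 : ℕ) * (x.2 : G)) := by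
  have h1 : (c1 ^ (k' * m)) ^ n = 1 := by
    rw [← pow_mul, show k' * m * n = n * k' * m by ring, pow_mul, hc1, one_pow]
  have h2 : χ (c1 ^ (k' * m)) = χ c1 := by
    rw [map_pow, ← Nat.div_add_mod (k' * m) n, hm, pow_add, pow_mul, hyn, one_pow, one_mul, pow_one]
  refine ⟨h1, h2, ?_, ?_, ?_⟩
  · rw [MonoidHom.mem_ker, map_mul, map_inv, h2, mul_inv_cancel]
  · rintro ⟨i, h⟩ ⟨j, h'⟩ hij
    have hij' : (c1 ^ (k' * m)) ^ (i : ℕ) * (h : G) = (c1 ^ (k' * m)) ^ (j : ℕ) * (h' : G) := hij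
    have e := congrArg χ hij'
    rw [map_mul, map_mul, map_pow _ (c1 ^ (k' * m)), map_pow _ (c1 ^ (k' * m)), h2,
      MonoidHom.mem_ker.1 h.2, MonoidHom.mem_ker.1 h'.2, mul_one, mul_one] at e
    have hi : (i : ℕ) = j := hinj _ _ i.2 j.2 e
    have hi' : i = j := Fin.ext hi
    subst hi'
    have : (h : G) = h' := mul_left_cancel hij'
    rw [Subtype.ext this]
  · intro g
    obtain ⟨i, hi, e⟩ := hsurj g
    refine ⟨(⟨i, hi⟩, ⟨((c1 ^ (k' * m)) ^ i)⁻¹ * g, ?_⟩), ?_⟩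
    · rw [MonoidHom.mem_ker, map_mul, map_inv, map_pow, h2, e, inv_mul_cancel]
    · show (c1 ^ (k' * m)) ^ i * (((c1 ^ (k' * m)) ^ i)⁻¹ * g) = g
      rw [mul_inv_cancel_left]

variable (M q : ℕ)

/-- `d ↦ (d mod q) ^ k'`. -/
def chi (k' : ℕ) : (ZMod (M * q))ˣ →* (ZMod q)ˣ :=
  (powMonoidHom k').comp (ZMod.unitsMap (dvd_mul_left q M))

/-- `GH` : the diamonds whose `q`-component has order prime to `p`. -/
def GH (k' : ℕ) : Subgroup (ZMod (M * q))ˣ := (chi M q k').ker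

variable {M q}

theorem chi_apply (k' : ℕ) (d : (ZMod (M * q))ˣ) :
    chi M q k' d = ZMod.unitsMap (dvd_mul_left q M) d ^ k' := rfl

theorem mem_GH {k' : ℕ} {d : (ZMod (M * q))ˣ} :
    d ∈ GH M q k' ↔ ZMod.unitsMap (dvd_mul_left q M) d ^ k' = 1 := Iff.rfl

theorem mem_GH_of_unitsMap_eq_one {k' : ℕ} {d : (ZMod (M * q))ˣ}
    (h : ZMod.unitsMap (dvd_mul_left q M) d = 1) : d ∈ GH M q k' := by
  rw [mem_GH, h, one_pow]

theorem neg_one_mem_GH {k' : ℕ} (hk : Even k') : (-1 : (ZMod (M * q))ˣ) ∈ GH M q k' := by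
  rw [mem_GH, ← map_pow, hk.neg_one_pow, map_one]

theorem chi_pow_eq_one [Fact q.Prime] {n k' : ℕ} (hnk : n * k' = q - 1) (d : (ZMod (M * q))ˣ) :
    chi M q k' d ^ n = 1 := by
  rw [chi_apply, ← pow_mul, mul_comm k' n, hnk]
  exact ZMod.units_pow_card_sub_one_eq_one q _

/-- **the decomposition of the diamonds.** -/
theorem grp_main [Fact q.Prime] {n k' : ℕ} (hn : 1 < n) (hnk : n * k' = q - 1) (hcop : Nat.Coprime n k')
    (c1 : (ZMod (M * q))ˣ) (hc1 : c1 ^ (n * k') = 1) (hord : orderOf (chi M q k' c1) = n) :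
    ∃ d0 : (ZMod (M * q))ˣ, d0 ^ n = 1 ∧ chi M q k' d0 = chi M q k' c1 ∧ d0 * c1⁻¹ ∈ GH M q k' ∧
      (∃ e : ℕ, d0 = c1 ^ e) ∧
      Function.Bijective (fun x : Fin n × GH M q k' => d0 ^ (x.1 : ℕ) * (x.2 : (ZMod (M * q))ˣ)) := by
  obtain ⟨m, -, hm⟩ := Nat.exists_mul_mod_eq_one_of_coprime hcop.symm hn
  have hprim : IsPrimitiveRoot (chi M q k' c1) n := by
    rw [← hord]; exact IsPrimitiveRoot.orderOf _
  have hprim' : IsPrimitiveRoot ((chi M q k' c1 : (ZMod q)ˣ) : ZMod q) n :=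
    IsPrimitiveRoot.coe_units_iff.2 hprim
  have hn0 : NeZero n := ⟨by omega⟩
  obtain ⟨h1, h2, h3, h4⟩ := grp_abs (chi M q k') n k' m c1 hm hc1 (chi_pow_eq_one hnk c1)
    (fun i j hi hj e => hprim.pow_inj hi hj e)
    (fun g => by
      have hg : ((chi M q k' g : (ZMod q)ˣ) : ZMod q) ^ n = 1 := by
        rw [← Units.val_pow_eq_pow_val, chi_pow_eq_one hnk g, Units.val_one]
      obtain ⟨i, hi, e⟩ := hprim'.eq_pow_of_pow_eq_one hg
      exact ⟨i, hi, Units.ext (by rw [Units.val_pow_eq_pow_val, e])⟩)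
  exact ⟨_, h1, h2, h3, ⟨_, rfl⟩, h4⟩

/-- `c ≡ 1 mod M` implies `c ^ (q - 1) = 1`. -/
theorem pow_eq_one_of_unitsMap [Fact q.Prime] (hMq : Nat.Coprime M q) (c1 : (ZMod (M * q))ˣ)
    (h : ZMod.unitsMap (dvd_mul_right M q) c1 = 1) : c1 ^ (q - 1) = 1 := by
  have hq : ZMod.unitsMap (dvd_mul_left q M) (c1 ^ (q - 1)) = 1 := by
    rw [map_pow]; exact ZMod.units_pow_card_sub_one_eq_one q _
  have hM : ZMod.unitsMap (dvd_mul_right M q) (c1 ^ (q - 1)) = 1 := by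
    rw [map_pow, h, one_pow]
  apply Units.ext
  apply (ZMod.chineseRemainder hMq).injective
  have e1 := congrArg Units.val hM
  have e2 := congrArg Units.val hq
  rw [ZMod.unitsMap_val, Units.val_one] at e1 e2
  rw [Units.val_one, map_one]
  refine Prod.ext ?_ ?_
  · exact (Prod.fst_zmod_cast _).trans e1
  · exact (Prod.snd_zmod_cast _).trans e2

end Fermat.Agent.S43.Free
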