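import Mathlib

/-!
# S43 / Free / Abs : the exactness hypotheses of COUNT, formally  (Mathlib only)

`X` a finite abelian group (`= KK_θ`), `Gt` a finite commutative group acting additively on `X` (all diamonds),
`Hs ≤ Gt`, `d0 ∈ Gt` such that `(i, h) ↦ d0 ^ i * h` is a bijection `Fin n × Hs → Gt`.
`pull : V →+ X` injective with range the `Gt`-invariants, `push : X →+ V` onto,
`c • pull (push x) = ∑ g, g x`, and `c` invertible on `X` (`(c' * c) • x = x`).

`HH ρ Hs` : the `Hs`-invariants, `δ = ρ d0`, `Nm = ∑_{i<n} δ ^ i`.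

* `herbrand`      : finite group, `a b = 0 = b a`, `ker a = im b`  ⟹  `ker b = im a`;
* `ker_w`         : `x ∈ H`, `δ x = x`  ⟹  `x = Nm y`, `y ∈ H`;
* `ker_nm`        : `x ∈ H`, `Nm x = 0` ⟹  `x = δ y - y`, `y ∈ H`;
* `exists_pull_eq_nm`, `nm_mem_range_pull` : `range pull = Nm H`;
* `kap`           : the induced surjection `H → V`, `pull (kap y) = Nm y`, with kernel `(δ - 1) H`.
-/

set_option autoImplicit false

namespace Fermat.Agent.S43.Free

open Finset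

/-- **Herbrand quotient of a finite module is one** (the form we need). -/
theorem herbrand {H : Type*} [AddCommGroup H] [Finite H] (a b : H →+ H)
    (hba : ∀ x, b (a x) = 0) (hker : ∀ x, a x = 0 → ∃ y, x = b y) (hab : ∀ x, a (b x) = 0) :
    ∀ x, b x = 0 → ∃ y, x = a y := by
  have h1 : Nat.card a.ker * Nat.card a.range = Nat.card H := by
    rw [← AddSubgroup.index_ker]; exact AddSubgroup.card_mul_index _
  have h2 : Nat.card b.ker * Nat.card b.range = Nat.card H := by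
    rw [← AddSubgroup.index_ker]; exact AddSubgroup.card_mul_index _
  have h3 : a.ker = b.range := by
    ext x
    constructor
    · intro hx
      obtain ⟨y, rfl⟩ := hker x hx
      exact ⟨y, rfl⟩
    · rintro ⟨y, rfl⟩
      exact hab y
  have hle : a.range ≤ b.ker := by
    rintro _ ⟨y, rfl⟩
    exact hba y
  have hpos : 0 < Nat.card b.range := Nat.card_pos
  have h4 : Nat.card a.range = Nat.card b.ker := by
    rw [h3] at h1
    have : Nat.card b.range * Nat.card a.range = Nat.card b.range * Nat.card b.ker := by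
      rw [h1, mul_comm, h2]
    exact Nat.eq_of_mul_eq_mul_left hpos this
  have h5 : a.range = b.ker := AddSubgroup.eq_of_le_of_card_ge hle h4.ge
  intro x hx
  have : x ∈ a.range := by rw [h5]; exact hx
  obtain ⟨y, hy⟩ := this
  exact ⟨y, hy.symm⟩

/-- the same for a stable subgroup. -/
theorem herbrand_sub {X : Type*} [AddCommGroup X] [Finite X] (H : AddSubgroup X) (a b : X →+ X)
    (ha : ∀ x ∈ H, a x ∈ H) (hb : ∀ x ∈ H, b x ∈ H)
    (hba : ∀ x ∈ H, b (a x) = 0) (hab : ∀ x ∈ H, a (b x) = 0)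
    (hker : ∀ x ∈ H, a x = 0 → ∃ y ∈ H, x = b y) :
    ∀ x ∈ H, b x = 0 → ∃ y ∈ H, x = a y := by
  let a' : H →+ H := (a.comp H.subtype).codRestrict H (fun x => ha x x.2)
  let b' : H →+ H := (b.comp H.subtype).codRestrict H (fun x => hb x x.2)
  have key := herbrand a' b' (fun x => Subtype.ext (hba x x.2))
    (fun x hx => by
      obtain ⟨y, hy, hxy⟩ := hker x x.2 (congrArg Subtype.val hx)
      exact ⟨⟨y, hy⟩, Subtype.ext hxy⟩)
    (fun x => Subtype.ext (hab x x.2))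
  intro x hx hbx
  obtain ⟨y, hy⟩ := key ⟨x, hx⟩ (Subtype.ext hbx)
  exact ⟨y, y.2, congrArg Subtype.val hy⟩

variable {X V Gt : Type*} [AddCommGroup X] [AddCommGroup V] [CommGroup Gt]

/-- the `Hs`-invariants. -/
def HH (ρ : Gt →* AddMonoid.End X) (Hs : Subgroup Gt) : AddSubgroup X where
  carrier := {x | ∀ h ∈ Hs, ρ h x = x}
  zero_mem' := fun h _ => map_zero _
  add_mem' := fun {x y} hx hy h hh => by rw [map_add, hx h hh, hy h hh]
  neg_mem' := fun {x} hx h hh => by rw [map_neg, hx h hh]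

theorem mem_HH {ρ : Gt →* AddMonoid.End X} {Hs : Subgroup Gt} {x : X} :
    x ∈ HH ρ Hs ↔ ∀ h ∈ Hs, ρ h x = x := Iff.rfl

/-- the norm `∑_{i<n} δ ^ i`. -/
def nm (ρ : Gt →* AddMonoid.End X) (d0 : Gt) (n : ℕ) : AddMonoid.End X := ∑ i ∈ range n, ρ d0 ^ i

theorem nm_apply (ρ : Gt →* AddMonoid.End X) (d0 : Gt) (n : ℕ) (x : X) :
    nm ρ d0 n x = ∑ i ∈ range n, (ρ d0 ^ i) x := by
  unfold nm
  exact AddMonoidHom.finsetSum_apply (fun i => (ρ d0 ^ i : X →+ X)) (range n) x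

theorem rho_comm (ρ : Gt →* AddMonoid.End X) (g h : Gt) (x : X) : ρ g (ρ h x) = ρ h (ρ g x) := by
  have h1 : ρ g * ρ h = ρ h * ρ g := by rw [← map_mul, ← map_mul, mul_comm]
  exact DFunLike.congr_fun h1 x

/-- anything commuting with `ρ h`, `h ∈ Hs`, preserves `HH`. -/
theorem map_mem_HH {ρ : Gt →* AddMonoid.End X} {Hs : Subgroup Gt} (T : X →+ X)
    (hT : ∀ h ∈ Hs, ∀ x, T (ρ h x) = ρ h (T x)) {x : X} (hx : x ∈ HH ρ Hs) : T x ∈ HH ρ Hs :=
  fun h hh => by rw [← hT h hh, hx h hh]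

theorem rho_mem_HH {ρ : Gt →* AddMonoid.End X} {Hs : Subgroup Gt} (g : Gt) {x : X}
    (hx : x ∈ HH ρ Hs) : ρ g x ∈ HH ρ Hs :=
  fun h hh => by rw [rho_comm, hx h hh]

theorem rho_pow_mem_HH {ρ : Gt →* AddMonoid.End X} {Hs : Subgroup Gt} (g : Gt) (i : ℕ) {x : X}
    (hx : x ∈ HH ρ Hs) : (ρ g ^ i) x ∈ HH ρ Hs := by
  rw [← map_pow]; exact rho_mem_HH _ hx

theorem nm_mem_HH {ρ : Gt →* AddMonoid.End X} {Hs : Subgroup Gt} (d0 : Gt) (n : ℕ) {x : X}
    (hx : x ∈ HH ρ Hs) : nm ρ d0 n x ∈ HH ρ Hs := by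
  rw [nm_apply]
  exact AddSubgroup.sum_mem _ fun i _ => rho_pow_mem_HH d0 i hx

/-- `(δ - 1) Nm = δ ^ n - 1`. -/
theorem rho_nm (ρ : Gt →* AddMonoid.End X) (d0 : Gt) (n : ℕ) (hd : d0 ^ n = 1) (x : X) :
    ρ d0 (nm ρ d0 n x) = nm ρ d0 n x := by
  have h := mul_geom_sum (ρ d0) n
  rw [← map_pow, hd, map_one, sub_self, sub_mul, one_mul, sub_eq_zero] at h
  exact DFunLike.congr_fun h x

theorem nm_rho (ρ : Gt →* AddMonoid.End X) (d0 : Gt) (n : ℕ) (hd : d0 ^ n = 1) (x : X) :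
    nm ρ d0 n (ρ d0 x) = nm ρ d0 n x := by
  have h := geom_sum_mul (ρ d0) n
  rw [← map_pow, hd, map_one, sub_self, mul_sub, mul_one, sub_eq_zero] at h
  exact DFunLike.congr_fun h x

/-- the data. -/
structure Data (ρ : Gt →* AddMonoid.End X) (Hs : Subgroup Gt) (d0 : Gt) (n : ℕ)
    (pull : V →+ X) (push : X →+ V) (c c' : ℕ) [Fintype Gt] : Prop where
  bij : Function.Bijective (fun x : Fin n × Hs => d0 ^ (x.1 : ℕ) * (x.2 : Gt))
  pow : d0 ^ n = 1
  pull_inj : Function.Injective pull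
  pull_fix : ∀ g v, ρ g (pull v) = pull v
  fix_pull : ∀ x, (∀ g, ρ g x = x) → ∃ v, pull v = x
  push_surj : Function.Surjective push
  pull_push : ∀ x, c • pull (push x) = ∑ g : Gt, ρ g x
  inv : ∀ x : X, (c' * c) • x = x

section main

variable {ρ : Gt →* AddMonoid.End X} {Hs : Subgroup Gt} {d0 : Gt} {n : ℕ}
  {pull : V →+ X} {push : X →+ V} {c c' : ℕ} [Fintype Gt]

/-- `x ∈ H` fixed by `δ` is fixed by everything. -/
theorem Data.fix_all (D : Data ρ Hs d0 n pull push c c') {x : X} (hx : x ∈ HH ρ Hs)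
    (hd : ρ d0 x = x) (g : Gt) : ρ g x = x := by
  obtain ⟨⟨i, h⟩, rfl⟩ := D.bij.2 g
  have hi : ∀ i : ℕ, (ρ d0 ^ i) x = x := by
    intro i
    induction i with
    | zero => rfl
    | succ k ih => rw [pow_succ]; show (ρ d0 ^ k) (ρ d0 x) = x; rw [hd, ih]
  show ρ (d0 ^ (i : ℕ) * (h : Gt)) x = x
  rw [map_mul, map_pow]
  show (ρ d0 ^ (i : ℕ)) (ρ (h : Gt) x) = x
  rw [hx h h.2, hi]

open Classical in
/-- `∑_g g = Nm ∘ Nm_{Hs}`. -/
theorem Data.sum_eq (D : Data ρ Hs d0 n pull push c c') (x : X) :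
    ∑ g : Gt, ρ g x = nm ρ d0 n (∑ h : Hs, ρ (h : Gt) x) := by
  rw [← D.bij.sum_comp (fun g => ρ g x), Fintype.sum_prod_type, nm_apply, ← Fin.sum_univ_eq_sum_range
    (fun i => (ρ d0 ^ i) (∑ h : Hs, ρ (h : Gt) x))]
  refine Finset.sum_congr rfl fun i _ => ?_
  rw [map_sum]
  refine Finset.sum_congr rfl fun h _ => ?_
  show ρ (d0 ^ (i : ℕ) * (h : Gt)) x = _
  rw [map_mul, map_pow]
  rfl

open Classical in
theorem sum_Hs_mem_HH (ρ : Gt →* AddMonoid.End X) (Hs : Subgroup Gt) (x : X) :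
    ∑ h : Hs, ρ (h : Gt) x ∈ HH ρ Hs := by
  intro k hk
  rw [map_sum]
  have := Equiv.sum_comp (Equiv.mulLeft (⟨k, hk⟩ : Hs)) (fun h : Hs => ρ (h : Gt) x)
  rw [← this]
  refine Finset.sum_congr rfl fun h _ => ?_
  show ρ k (ρ (h : Gt) x) = ρ (k * (h : Gt)) x
  rw [map_mul]
  rfl

/-- `range pull ⊆ Nm H`. -/
theorem Data.exists_pull_eq_nm (D : Data ρ Hs d0 n pull push c c') (v : V) :
    ∃ y ∈ HH ρ Hs, pull v = nm ρ d0 n y := by
  classical
  obtain ⟨x, rfl⟩ := D.push_surj v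
  refine ⟨c' • ∑ h : Hs, ρ (h : Gt) x, AddSubgroup.nsmul_mem _ (sum_Hs_mem_HH ρ Hs x) _, ?_⟩
  rw [map_nsmul, ← D.sum_eq, ← D.pull_push, smul_smul, D.inv]

/-- `Nm H ⊆ range pull`. -/
theorem Data.nm_mem_range_pull (D : Data ρ Hs d0 n pull push c c') {y : X} (hy : y ∈ HH ρ Hs) :
    ∃ v, pull v = nm ρ d0 n y :=
  D.fix_pull _ (D.fix_all (nm_mem_HH d0 n hy) (rho_nm ρ d0 n D.pow y))

/-- **`ker (δ - 1 | H) = Nm H`.** -/
theorem Data.ker_w (D : Data ρ Hs d0 n pull push c c') {x : X} (hx : x ∈ HH ρ Hs)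
    (hd : ρ d0 x = x) : ∃ y ∈ HH ρ Hs, x = nm ρ d0 n y := by
  obtain ⟨v, rfl⟩ := D.fix_pull x (D.fix_all hx hd)
  exact D.exists_pull_eq_nm v

/-- **`ker (Nm | H) = (δ - 1) H`.** -/
theorem Data.ker_nm [Finite X] (D : Data ρ Hs d0 n pull push c c') {x : X} (hx : x ∈ HH ρ Hs)
    (hn : nm ρ d0 n x = 0) : ∃ y ∈ HH ρ Hs, x = ρ d0 y - y := by
  have key := herbrand_sub (HH ρ Hs) ((show X →+ X from ρ d0) - AddMonoidHom.id X)
    (show X →+ X from nm ρ d0 n)
    (fun x hx => by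
      rw [AddMonoidHom.sub_apply]
      exact AddSubgroup.sub_mem _ (rho_mem_HH d0 hx) hx)
    (fun x hx => nm_mem_HH d0 n hx)
    (fun x _ => by
      rw [AddMonoidHom.sub_apply, map_sub]
      exact sub_eq_zero.2 (nm_rho ρ d0 n D.pow x))
    (fun x _ => by
      rw [AddMonoidHom.sub_apply]
      exact sub_eq_zero.2 (rho_nm ρ d0 n D.pow x))
    (fun x hx h => by
      rw [AddMonoidHom.sub_apply] at h
      exact D.ker_w hx (sub_eq_zero.1 h))
  obtain ⟨y, hy, h⟩ := key x hx hn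
  exact ⟨y, hy, h⟩

/-- the map `H → V`, `pull (kap y) = Nm y`. -/
noncomputable def Data.kap (D : Data ρ Hs d0 n pull push c c') : HH ρ Hs →+ V :=
  AddMonoidHom.mk' (fun y => (D.nm_mem_range_pull y.2).choose) (fun y z => by
    apply D.pull_inj
    rw [map_add, (D.nm_mem_range_pull y.2).choose_spec, (D.nm_mem_range_pull z.2).choose_spec,
      (D.nm_mem_range_pull (y + z).2).choose_spec]
    exact map_add _ _ _)

theorem Data.pull_kap (D : Data ρ Hs d0 n pull push c c') (y : HH ρ Hs) :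
    pull (D.kap y) = nm ρ d0 n (y : X) := (D.nm_mem_range_pull y.2).choose_spec

theorem Data.kap_surjective (D : Data ρ Hs d0 n pull push c c') : Function.Surjective D.kap := by
  intro v
  obtain ⟨y, hy, h⟩ := D.exists_pull_eq_nm v
  exact ⟨⟨y, hy⟩, D.pull_inj (by rw [D.pull_kap, h])⟩

theorem Data.kap_eq_zero_iff [Finite X] (D : Data ρ Hs d0 n pull push c c') (y : HH ρ Hs) :
    D.kap y = 0 ↔ ∃ z ∈ HH ρ Hs, (y : X) = ρ d0 z - z := by
  constructor
  · intro h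
    refine D.ker_nm y.2 ?_
    rw [← D.pull_kap, h, map_zero]
  · rintro ⟨z, _, h⟩
    apply D.pull_inj
    rw [D.pull_kap, h, map_sub, nm_rho ρ d0 n D.pow, sub_self, map_zero]

/-- equivariance of `kap`. -/
theorem Data.kap_equivariant (D : Data ρ Hs d0 n pull push c c') (TX : X →+ X) (TV : V →+ V)
    (hT : ∀ g x, TX (ρ g x) = ρ g (TX x)) (hp : ∀ v, TX (pull v) = pull (TV v)) (y : HH ρ Hs) :
    D.kap ⟨TX y, map_mem_HH TX (fun h _ x => hT h x) y.2⟩ = TV (D.kap y) := by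
  apply D.pull_inj
  rw [D.pull_kap, ← hp, D.pull_kap, nm_apply, nm_apply, map_sum]
  refine Finset.sum_congr rfl fun i _ => ?_
  rw [← map_pow]
  exact (hT _ _).symm

/-- `kap (pull-back class)`: on `pull v` the norm is multiplication by `n`. -/
theorem Data.kap_pull (D : Data ρ Hs d0 n pull push c c') (v : V) :
    D.kap ⟨pull v, fun h _ => D.pull_fix h v⟩ = n • v := by
  apply D.pull_inj
  rw [D.pull_kap, nm_apply, map_nsmul]
  have : ∀ i ∈ range n, (ρ d0 ^ i) (pull v) = pull v := fun i _ => by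
    rw [← map_pow]; exact D.pull_fix _ v
  rw [Finset.sum_congr rfl this, Finset.sum_const, Finset.card_range]

end main

end Fermat.Agent.S43.Free
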